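import Mathlib

/-!
# S16 / L-lat : an explicit even quaternary lattice of level `p` and determinant `p ^ 2`

For integers `m r t` and `p` with `r ^ 2 + p = (2 * m - 1) * t` we consider the Gram matrix
`latA p m r t` and the matrix `latB m r t` with `latA * latB = p • 1`.
If `0 < p`, `0 < m` the matrix `latA` is positive definite, and if `m` is even both matrices
have even diagonal.  For every prime `p` suitable `m r t` exist
(Dirichlet's theorem + quadratic reciprocity if `p ≡ 1 mod 4`).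
-/

set_option autoImplicit false

namespace Fermat.Agent.S16.H188

open Matrix

/-- The Gram matrix of the quaternary lattice. -/
def latA (p m r t : ℤ) : Matrix (Fin 4) (Fin 4) ℤ :=
  !![2, 1, 0, 0; 1, m, 0, r; 0, 0, p * m, p; 0, r, p, 2 * t]

/-- `p` times the inverse of the Gram matrix. -/
def latB (m r t : ℤ) : Matrix (Fin 4) (Fin 4) ℤ :=
  !![m * t, -(t + r ^ 2), -r, r * m;
     -(t + r ^ 2), 2 * (t + r ^ 2), 2 * r, -(2 * r * m);
     -r, 2 * r, 2, -(2 * m - 1);
     r * m, -(2 * r * m), -(2 * m - 1), (2 * m - 1) * m]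

theorem latA_isSymm (p m r t : ℤ) : (latA p m r t).IsSymm := by
  ext i j
  fin_cases i <;> fin_cases j <;> simp [latA]

theorem latB_isSymm (m r t : ℤ) : (latB m r t).IsSymm := by
  ext i j
  fin_cases i <;> fin_cases j <;> simp [latB]

theorem latA_mul_latB {p m r t : ℤ} (h : r ^ 2 + p = (2 * m - 1) * t) :
    latA p m r t * latB m r t = p • (1 : Matrix (Fin 4) (Fin 4) ℤ) := by
  have hp : p = (2 * m - 1) * t - r ^ 2 := by linarith
  ext i j
  fin_cases i <;> fin_cases j <;>
    simp [latA, latB, Matrix.mul_apply, Fin.sum_univ_four] <;>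
    (subst hp; ring)

theorem latB_mul_latA {p m r t : ℤ} (h : r ^ 2 + p = (2 * m - 1) * t) :
    latB m r t * latA p m r t = p • (1 : Matrix (Fin 4) (Fin 4) ℤ) := by
  have hp : p = (2 * m - 1) * t - r ^ 2 := by linarith
  ext i j
  fin_cases i <;> fin_cases j <;>
    simp [latA, latB, Matrix.mul_apply, Fin.sum_univ_four] <;>
    (subst hp; ring)

theorem det_latA {p m r t : ℤ} (h : r ^ 2 + p = (2 * m - 1) * t) :
    (latA p m r t).det = p ^ 2 := by
  have hp : p = (2 * m - 1) * t - r ^ 2 := by linarith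
  rw [Matrix.det_succ_row_zero]
  simp [latA, Fin.sum_univ_four, Matrix.det_fin_three, Fin.succAbove, Matrix.submatrix]
  subst hp
  ring

theorem latA_diag_even {p m r t : ℤ} (hm : Even m) (i : Fin 4) : Even (latA p m r t i i) := by
  fin_cases i <;> simp [latA, hm]

theorem latB_diag_even {m r t : ℤ} (hm : Even m) (i : Fin 4) : Even (latB m r t i i) := by
  fin_cases i <;> simp [latB, hm]

/-- The quadratic form of `latA` over any commutative ring. -/
theorem latA_quadForm {R : Type*} [CommRing R] (p m r t : ℤ) (x : Fin 4 → R) :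
    x ⬝ᵥ ((latA p m r t).map (Int.cast : ℤ → R)) *ᵥ x =
      2 * x 0 ^ 2 + 2 * x 0 * x 1 + m * x 1 ^ 2 + 2 * r * x 1 * x 3 + p * m * x 2 ^ 2
        + 2 * p * x 2 * x 3 + 2 * t * x 3 ^ 2 := by
  simp [latA, dotProduct, Matrix.mulVec, Fin.sum_univ_four]
  ring

/-- Sum-of-squares form of the quadratic form. -/
theorem latA_sos {p m r t : ℤ} (h : r ^ 2 + p = (2 * m - 1) * t) (x : Fin 4 → ℝ) :
    2 * ((2 * m - 1 : ℝ) * m) * (x ⬝ᵥ ((latA p m r t).map (Int.cast : ℤ → ℝ)) *ᵥ x) =
      (2 * m - 1) * m * (2 * x 0 + x 1) ^ 2 + m * ((2 * m - 1) * x 1 + 2 * r * x 3) ^ 2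
        + 2 * (2 * m - 1) * p * (m * x 2 + x 3) ^ 2 + 2 * p * x 3 ^ 2 := by
  have hp : (p : ℝ) = (2 * m - 1) * t - r ^ 2 := by
    have : ((r ^ 2 + p : ℤ) : ℝ) = (((2 * m - 1) * t : ℤ) : ℝ) := by rw [h]
    push_cast at this
    linarith
  rw [latA_quadForm, hp]
  ring

theorem latA_posDef {p m r t : ℤ} (hp : 0 < p) (hm : 0 < m)
    (h : r ^ 2 + p = (2 * m - 1) * t) :
    ((latA p m r t).map (Int.cast : ℤ → ℝ)).PosDef := by
  refine Matrix.PosDef.of_dotProduct_mulVec_pos ?_ ?_
  · have := latA_isSymm p m r t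
    rw [Matrix.IsHermitian, Matrix.conjTranspose_eq_transpose_of_trivial]
    rw [← Matrix.transpose_map, this.eq]
  · intro x hx
    rw [star_trivial]
    have hmR : (0 : ℝ) < m := by exact_mod_cast hm
    have hpR : (0 : ℝ) < p := by exact_mod_cast hp
    have hqR : (0 : ℝ) < 2 * m - 1 := by
      have : (1 : ℤ) ≤ m := hm
      have : (1 : ℝ) ≤ m := by exact_mod_cast this
      linarith
    have hsos := latA_sos h x
    have hc : (0 : ℝ) < 2 * ((2 * m - 1 : ℝ) * m) := by positivity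
    by_contra hneg
    rw [not_lt] at hneg
    have h0 : 2 * ((2 * m - 1 : ℝ) * m) *
        (x ⬝ᵥ ((latA p m r t).map (Int.cast : ℤ → ℝ)) *ᵥ x) ≤ 0 :=
      mul_nonpos_of_nonneg_of_nonpos hc.le hneg
    rw [hsos] at h0
    have t1 : 0 ≤ (2 * m - 1 : ℝ) * m * (2 * x 0 + x 1) ^ 2 := by positivity
    have t2 : 0 ≤ (m : ℝ) * ((2 * m - 1) * x 1 + 2 * r * x 3) ^ 2 := by positivity
    have t3 : 0 ≤ 2 * (2 * m - 1 : ℝ) * p * (m * x 2 + x 3) ^ 2 := by positivity
    have t4 : 0 ≤ 2 * (p : ℝ) * x 3 ^ 2 := by positivity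
    have e4 : 2 * (p : ℝ) * x 3 ^ 2 = 0 := by linarith
    have e3 : 2 * (2 * m - 1 : ℝ) * p * (m * x 2 + x 3) ^ 2 = 0 := by linarith
    have e2 : (m : ℝ) * ((2 * m - 1) * x 1 + 2 * r * x 3) ^ 2 = 0 := by linarith
    have e1 : (2 * m - 1 : ℝ) * m * (2 * x 0 + x 1) ^ 2 = 0 := by linarith
    have x3 : x 3 = 0 := by
      have : x 3 ^ 2 = 0 := by
        rcases mul_eq_zero.mp e4 with h' | h'
        · exfalso; linarith
        · exact h'
      exact pow_eq_zero_iff (two_ne_zero) |>.mp this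
    have x2 : x 2 = 0 := by
      have : (m * x 2 + x 3) ^ 2 = 0 := by
        rcases mul_eq_zero.mp e3 with h' | h'
        · exfalso
          have : 0 < 2 * (2 * m - 1 : ℝ) * p := by positivity
          linarith
        · exact h'
      have := pow_eq_zero_iff (two_ne_zero) |>.mp this
      rw [x3, add_zero] at this
      rcases mul_eq_zero.mp this with h' | h'
      · exfalso; linarith
      · exact h'
    have x1 : x 1 = 0 := by
      have : ((2 * m - 1) * x 1 + 2 * r * x 3) ^ 2 = 0 := by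
        rcases mul_eq_zero.mp e2 with h' | h'
        · exfalso; linarith
        · exact h'
      have := pow_eq_zero_iff (two_ne_zero) |>.mp this
      rw [x3, mul_zero, add_zero] at this
      rcases mul_eq_zero.mp this with h' | h'
      · exfalso; linarith
      · exact h'
    have x0 : x 0 = 0 := by
      have : (2 * x 0 + x 1) ^ 2 = 0 := by
        rcases mul_eq_zero.mp e1 with h' | h'
        · exfalso
          have : 0 < (2 * m - 1 : ℝ) * m := by positivity
          linarith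
        · exact h'
      have := pow_eq_zero_iff (two_ne_zero) |>.mp this
      rw [x1, add_zero] at this
      linarith
    apply hx
    ext i
    fin_cases i <;> simp [x0, x1, x2, x3]


/-! ### Existence of the parameters -/

/-- For a prime `p ≡ 1 mod 4` there is a prime `q ≡ 3 mod 4` such that `-p` is a square
mod `q` (Dirichlet's theorem and quadratic reciprocity). -/
theorem exists_prime_three_mod_four_neg_isSquare {p : ℕ} (hp : p.Prime) (hp1 : p % 4 = 1) :
    ∃ q : ℕ, q.Prime ∧ q % 4 = 3 ∧ IsSquare ((-(p : ℤ) : ℤ) : ZMod q) := by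
  have : Fact p.Prime := ⟨hp⟩
  have hp2 : p ≠ 2 := by rintro rfl; simp at hp1
  -- a non-residue mod `p`
  obtain ⟨g, hg⟩ : ∃ g : ZMod p, ¬ IsSquare g :=
    FiniteField.exists_nonsquare (by rwa [ZMod.ringChar_zmod_n])
  have hg0 : g ≠ 0 := by rintro rfl; exact hg ⟨0, by simp⟩
  have hcop : Nat.Coprime 4 p := by
    have : Nat.Coprime 2 p := (Nat.coprime_primes Nat.prime_two hp).mpr (Ne.symm hp2)
    simpa using Nat.Coprime.pow_left 2 this
  have : NeZero (4 * p) := ⟨by have := hp.pos; omega⟩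
  set e := ZMod.chineseRemainder hcop with he
  set a : ZMod (4 * p) := e.symm (3, g) with ha
  have hunit : IsUnit a := by
    have h3 : IsUnit (3 : ZMod 4) := by decide
    have hgu : IsUnit g := isUnit_iff_ne_zero.mpr hg0
    have : IsUnit ((3, g) : ZMod 4 × ZMod p) := Prod.isUnit_iff.mpr ⟨h3, hgu⟩
    exact (MulEquiv.isUnit_map e.symm.toMulEquiv).mpr this
  obtain ⟨q, -, hq, hqa⟩ := Nat.forall_exists_prime_gt_and_eq_mod hunit 0
  have : Fact q.Prime := ⟨hq⟩
  have hea : e (q : ZMod (4 * p)) = (3, g) := by rw [hqa, ha]; simp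
  have heq : e (q : ZMod (4 * p)) = ((q : ZMod 4), (q : ZMod p)) := by
    rw [map_natCast]; rfl
  rw [heq] at hea
  have hq4 : (q : ZMod 4) = 3 := congrArg Prod.fst hea
  have hqp : (q : ZMod p) = g := congrArg Prod.snd hea
  have hq43 : q % 4 = 3 := by
    have := (ZMod.natCast_eq_natCast_iff' q 3 4).mp (by simpa using hq4)
    simpa using this
  have hq2 : q ≠ 2 := by rintro rfl; simp at hq43
  have hqp' : q ≠ p := by rintro rfl; simp [hp1] at hq43
  refine ⟨q, hq, hq43, ?_⟩
  -- `p` is not a square mod `q`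
  have hpq : ¬ IsSquare ((p : ℕ) : ZMod q) := by
    rw [← ZMod.exists_sq_eq_prime_iff_of_mod_four_eq_one hp1 hq2, hqp]
    exact hg
  have hneg : ¬ IsSquare (-1 : ZMod q) := by
    rw [ZMod.exists_sq_eq_neg_one_iff]; simp [hq43]
  have hp0 : ((p : ℤ) : ZMod q) ≠ 0 := by
    rw [Int.cast_natCast]
    exact (ZMod.prime_ne_zero q p hqp')
  have hm10 : (((-1 : ℤ)) : ZMod q) ≠ 0 := by
    simp
  have h1 : legendreSym q p = -1 := by
    rw [legendreSym.eq_neg_one_iff]
    simpa using hpq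
  have h2 : legendreSym q (-1) = -1 := by
    rw [legendreSym.eq_neg_one_iff]
    simpa using hneg
  have h3 : legendreSym q (-(p : ℤ)) = 1 := by
    have : (-(p : ℤ)) = (-1) * p := by ring
    rw [this, legendreSym.mul, h1, h2]; norm_num
  have hnp0 : ((-(p : ℤ) : ℤ) : ZMod q) ≠ 0 := by
    rw [Int.cast_neg]; exact neg_ne_zero.mpr hp0
  exact (legendreSym.eq_one_iff q hnp0).mp h3

/-- Existence of the parameters `m r t` for every prime `p`. -/
theorem exists_lattice_params {p : ℕ} (hp : p.Prime) :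
    ∃ m r t : ℤ, 0 < m ∧ Even m ∧ r ^ 2 + (p : ℤ) = (2 * m - 1) * t := by
  rcases hp.eq_two_or_odd with rfl | hodd
  · exact ⟨2, 1, 1, by norm_num, by decide, by norm_num⟩
  have h4 : p % 4 = 1 ∨ p % 4 = 3 := by omega
  rcases h4 with h1 | h3
  · obtain ⟨q, hq, hq3, hsq⟩ := exists_prime_three_mod_four_neg_isSquare hp h1
    obtain ⟨s, hs⟩ := hsq
    obtain ⟨r, rfl⟩ := ZMod.intCast_surjective s
    have hdvd : (q : ℤ) ∣ r ^ 2 + p := by
      rw [← ZMod.intCast_zmod_eq_zero_iff_dvd]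
      push_cast
      have : ((p : ℤ) : ZMod q) = -((r : ZMod q) * r) := by
        rw [← hs]; simp
      rw [Int.cast_natCast] at this
      rw [this]; ring
    obtain ⟨t, ht⟩ := hdvd
    refine ⟨((q + 1) / 4 : ℕ) * 2, r, t, ?_, ⟨((q + 1) / 4 : ℕ), by ring⟩, ?_⟩
    · have : 0 < (q + 1) / 4 := by omega
      positivity
    · rw [ht]
      have : (2 * ((((q + 1) / 4 : ℕ) : ℤ) * 2) - 1) = q := by
        have : ((q + 1) / 4) * 4 = q + 1 := by omega
        have h' : ((((q + 1) / 4 : ℕ) : ℤ)) * 4 = q + 1 := by exact_mod_cast this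
        linarith
      rw [this]
  · refine ⟨((p + 1) / 4 : ℕ) * 2, 0, 1, ?_, ⟨((p + 1) / 4 : ℕ), by ring⟩, ?_⟩
    · have : 0 < (p + 1) / 4 := by omega
      positivity
    · have : ((p + 1) / 4) * 4 = p + 1 := by omega
      have h' : ((((p + 1) / 4 : ℕ) : ℤ)) * 4 = p + 1 := by exact_mod_cast this
      linarith

/-- **L-lat.** For every prime `p` there is an even, positive definite, symmetric integral
`4 × 4` matrix `A` of determinant `p ^ 2` such that `p • A⁻¹ = B` is integral and even. -/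
theorem exists_lattice {p : ℕ} (hp : p.Prime) :
    ∃ A B : Matrix (Fin 4) (Fin 4) ℤ, A.IsSymm ∧ B.IsSymm ∧
      A * B = (p : ℤ) • (1 : Matrix (Fin 4) (Fin 4) ℤ) ∧
      B * A = (p : ℤ) • (1 : Matrix (Fin 4) (Fin 4) ℤ) ∧
      A.det = (p : ℤ) ^ 2 ∧ (∀ i, Even (A i i)) ∧ (∀ i, Even (B i i)) ∧
      (A.map (Int.cast : ℤ → ℝ)).PosDef := by
  obtain ⟨m, r, t, hm, hme, h⟩ := exists_lattice_params hp
  have hp0 : (0 : ℤ) < p := by exact_mod_cast hp.pos
  exact ⟨latA p m r t, latB m r t, latA_isSymm _ _ _ _, latB_isSymm _ _ _, latA_mul_latB h,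
    latB_mul_latA h, det_latA h, latA_diag_even hme, latB_diag_even hme, latA_posDef hp0 hm h⟩

end Fermat.Agent.S16.H188
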