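import Fermat.Agent.S16.H188.ThetaSum
import Fermat.Agent.S24.JFun.QFun
import Fermat.Prelude.Def_FLTPrelim_Modularity

/-!
# S16 / THETA-AN (part 2): the `q`-expansion of the theta series of an even integral lattice

For an integral symmetric matrix `A₀` with even diagonal, positive definite over `ℝ`,
`Θ(τ) = ∑_{x ∈ ℤ^ι} exp (π i τ xᵀ A₀ x) = ∑_{n ≥ 0} r(n) q^n` with
`r(n) = #{x : xᵀ A₀ x = 2 n}`; `r(0) = 1` and `r(n)` is even for `n ≥ 1`.
-/

set_option autoImplicit false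

noncomputable section

namespace Fermat.Agent.S16.H188

open Complex Matrix Function
open scoped Real Manifold

variable {ι : Type*} [Fintype ι]

/-- The integral quadratic form `x ↦ xᵀ A₀ x`. -/
def intQ (A₀ : Matrix ι ι ℤ) (x : ι → ℤ) : ℤ := x ⬝ᵥ A₀ *ᵥ x

lemma intQ_neg (A₀ : Matrix ι ι ℤ) (x : ι → ℤ) : intQ A₀ (-x) = intQ A₀ x := by
  simp [intQ, Matrix.mulVec_neg]

lemma intQ_zero (A₀ : Matrix ι ι ℤ) : intQ A₀ 0 = 0 := by simp [intQ]

/-- The real form of `A₀` at an integral vector. -/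
lemma qf_map_intCast (A₀ : Matrix ι ι ℤ) (x : ι → ℤ) :
    qf (A₀.map (Int.cast : ℤ → ℝ)) (fun i => (x i : ℝ)) = (intQ A₀ x : ℝ) := by
  simp [qf, intQ, dotProduct, Matrix.mulVec]

omit [Fintype ι] in
lemma shiftVec_zero (x : ι → ℤ) : shiftVec (0 : ι → ℝ) x = fun i => (x i : ℝ) := by
  funext i
  simp [shiftVec]

/-- An integral symmetric matrix with even diagonal has an even quadratic form. -/
theorem even_intQ {A₀ : Matrix ι ι ℤ} (hsymm : A₀.IsSymm) (hdiag : ∀ i, Even (A₀ i i))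
    (x : ι → ℤ) : Even (intQ A₀ x) := by
  classical
  rw [← ZMod.intCast_eq_zero_iff_even]
  have h1 : ((intQ A₀ x : ℤ) : ZMod 2) =
      ∑ p ∈ (Finset.univ : Finset (ι × ι)),
        ((x p.1 : ZMod 2) * ((A₀ p.1 p.2 : ZMod 2) * (x p.2 : ZMod 2))) := by
    simp only [intQ, dotProduct, Matrix.mulVec, Int.cast_sum, Int.cast_mul, Finset.mul_sum]
    rw [← Finset.univ_product_univ, Finset.sum_product]
  rw [h1]
  refine Finset.sum_ninvolution (fun p => (p.2, p.1)) ?_ ?_ (fun _ => Finset.mem_univ _)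
    (fun _ => rfl)
  · rintro ⟨i, j⟩
    have hij : A₀ j i = A₀ i j := by
      have := congrFun (congrFun hsymm.eq i) j
      simpa [Matrix.transpose_apply] using this
    simp only [hij]
    have : ∀ a : ZMod 2, a + a = 0 := by decide
    have h2 := this ((x i : ZMod 2) * ((A₀ i j : ZMod 2) * (x j : ZMod 2)))
    calc _ = (x i : ZMod 2) * ((A₀ i j : ZMod 2) * (x j : ZMod 2)) +
          (x i : ZMod 2) * ((A₀ i j : ZMod 2) * (x j : ZMod 2)) := by ring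
      _ = 0 := h2
  · rintro ⟨i, j⟩ hne hfix
    simp only [Prod.mk.injEq] at hfix
    obtain ⟨rfl, -⟩ := hfix
    apply hne
    have : ((A₀ j j : ℤ) : ZMod 2) = 0 := (ZMod.intCast_eq_zero_iff_even).mpr (hdiag j)
    simp [this]

section Lattice

variable (A₀ : Matrix ι ι ℤ)

/-- The norm form `N x = xᵀ A₀ x / 2` with values in `ℕ`. -/
def halfQ (x : ι → ℤ) : ℕ := (intQ A₀ x / 2).toNat

variable {A₀}

lemma intQ_nonneg (hpos : (A₀.map (Int.cast : ℤ → ℝ)).PosDef) (x : ι → ℤ) : 0 ≤ intQ A₀ x := by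
  have h : (0 : ℝ) ≤ (intQ A₀ x : ℝ) := by
    rw [← qf_map_intCast]
    rcases eq_or_ne (fun i => (x i : ℝ)) 0 with h0 | h0
    · rw [h0, qf_zero]
    · exact (qf_pos hpos h0).le
  exact_mod_cast h

lemma intQ_eq_zero_iff (hpos : (A₀.map (Int.cast : ℤ → ℝ)).PosDef) (x : ι → ℤ) :
    intQ A₀ x = 0 ↔ x = 0 := by
  constructor
  · intro h
    by_contra hx
    have hx' : (fun i => (x i : ℝ)) ≠ 0 := by
      intro h0
      apply hx
      funext i
      have := congrFun h0 i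
      simpa using this
    have := qf_pos hpos hx'
    rw [qf_map_intCast, h] at this
    simp at this
  · rintro rfl
    exact intQ_zero A₀

lemma two_mul_halfQ (hsymm : A₀.IsSymm) (hdiag : ∀ i, Even (A₀ i i))
    (hpos : (A₀.map (Int.cast : ℤ → ℝ)).PosDef) (x : ι → ℤ) :
    (2 * (halfQ A₀ x : ℤ)) = intQ A₀ x := by
  obtain ⟨m, hm⟩ := even_intQ hsymm hdiag x
  have h0 := intQ_nonneg hpos x
  have hm0 : 0 ≤ m := by omega
  rw [halfQ, hm]
  have : (m + m) / 2 = m := by omega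
  rw [this, Int.toNat_of_nonneg hm0]
  ring

lemma halfQ_neg (x : ι → ℤ) : halfQ A₀ (-x) = halfQ A₀ x := by
  rw [halfQ, halfQ, intQ_neg]

lemma halfQ_eq_zero_iff (hsymm : A₀.IsSymm) (hdiag : ∀ i, Even (A₀ i i))
    (hpos : (A₀.map (Int.cast : ℤ → ℝ)).PosDef) (x : ι → ℤ) : halfQ A₀ x = 0 ↔ x = 0 := by
  rw [← intQ_eq_zero_iff hpos, ← two_mul_halfQ hsymm hdiag hpos]
  omega

/-- The terms of the theta series are powers of `q`. -/
lemma thetaTerm_eq_qParam_pow (hsymm : A₀.IsSymm) (hdiag : ∀ i, Even (A₀ i i))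
    (hpos : (A₀.map (Int.cast : ℤ → ℝ)).PosDef) (τ : ℂ) (x : ι → ℤ) :
    thetaTerm (A₀.map (Int.cast : ℤ → ℝ)) 0 τ x = Periodic.qParam 1 τ ^ halfQ A₀ x := by
  rw [thetaTerm, shiftVec_zero, qf_map_intCast, Periodic.qParam, ← Complex.exp_nat_mul]
  congr 1
  have h := two_mul_halfQ hsymm hdiag hpos x
  have h' : ((intQ A₀ x : ℝ) : ℂ) = 2 * (halfQ A₀ x : ℂ) := by
    rw [← h]; push_cast; ring
  rw [h']
  push_cast
  ring

/-- The fibres of the norm form are finite. -/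
theorem finite_halfQ_fibre (hsymm : A₀.IsSymm) (hdiag : ∀ i, Even (A₀ i i))
    (hpos : (A₀.map (Int.cast : ℤ → ℝ)).PosDef) (n : ℕ) :
    {x : ι → ℤ | halfQ A₀ x = n}.Finite := by
  obtain ⟨c, hc0, hc⟩ := exists_pos_le_qf hpos
  obtain ⟨B, hB⟩ := exists_nat_ge (2 * (n : ℝ) / c)
  have hfin : (Set.pi Set.univ (fun _ : ι => Set.Icc (-(B : ℤ)) B)).Finite :=
    Set.Finite.pi fun _ => Set.finite_Icc _ _
  refine hfin.subset fun x hx => ?_
  have hx : halfQ A₀ x = n := hx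
  rw [Set.mem_pi]
  intro i _
  rw [Set.mem_Icc]
  have h1 := hc (fun i => (x i : ℝ))
  rw [qf_map_intCast, ← two_mul_halfQ hsymm hdiag hpos, hx] at h1
  have h2 : ((x i : ℝ)) ^ 2 ≤ ∑ j, ((x j : ℝ)) ^ 2 :=
    Finset.single_le_sum (f := fun j => ((x j : ℝ)) ^ 2) (fun j _ => sq_nonneg _)
      (Finset.mem_univ i)
  have h3 : ((x i : ℝ)) ^ 2 ≤ B := by
    have : c * ((x i : ℝ)) ^ 2 ≤ 2 * n := by
      calc c * ((x i : ℝ)) ^ 2 ≤ c * ∑ j, ((x j : ℝ)) ^ 2 := by gcongr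
        _ ≤ _ := by exact_mod_cast h1
    have : ((x i : ℝ)) ^ 2 ≤ 2 * n / c := by
      rw [le_div_iff₀ hc0]; linarith
    linarith
  have h4 : (x i) ^ 2 ≤ (B : ℤ) := by exact_mod_cast h3
  have h5 : |x i| ≤ (x i) ^ 2 := by
    rcases abs_cases (x i) with ⟨h, _⟩ | ⟨h, _⟩ <;> rw [h] <;> nlinarith
  have h6 : |x i| ≤ (B : ℤ) := le_trans h5 h4
  exact abs_le.mp h6

/-- The representation numbers `r(n) = #{x : xᵀ A₀ x = 2 n}`. -/
def repNum (A₀ : Matrix ι ι ℤ) (n : ℕ) : ℕ := Nat.card {x : ι → ℤ // halfQ A₀ x = n}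

theorem repNum_zero (hsymm : A₀.IsSymm) (hdiag : ∀ i, Even (A₀ i i))
    (hpos : (A₀.map (Int.cast : ℤ → ℝ)).PosDef) : repNum A₀ 0 = 1 := by
  rw [repNum, Nat.card_eq_one_iff_unique]
  refine ⟨⟨fun a b => ?_⟩, ⟨⟨0, (halfQ_eq_zero_iff hsymm hdiag hpos 0).mpr rfl⟩⟩⟩
  have ha := (halfQ_eq_zero_iff hsymm hdiag hpos a.1).mp a.2
  have hb := (halfQ_eq_zero_iff hsymm hdiag hpos b.1).mp b.2
  exact Subtype.ext (ha.trans hb.symm)

theorem even_repNum (hsymm : A₀.IsSymm) (hdiag : ∀ i, Even (A₀ i i))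
    (hpos : (A₀.map (Int.cast : ℤ → ℝ)).PosDef) {n : ℕ} (hn : n ≠ 0) : Even (repNum A₀ n) := by
  classical
  have : Fintype {x : ι → ℤ // halfQ A₀ x = n} :=
    (finite_halfQ_fibre hsymm hdiag hpos n).fintype
  rw [repNum, Nat.card_eq_fintype_card, ← Finset.card_univ]
  have key : ∑ _x ∈ (Finset.univ : Finset {x : ι → ℤ // halfQ A₀ x = n}), (1 : ZMod 2) = 0 := by
    refine Finset.sum_ninvolution
      (fun x => ⟨-x.1, by rw [halfQ_neg]; exact x.2⟩) ?_ ?_ (fun _ => Finset.mem_univ _) ?_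
    · intro _; decide
    · intro x _ hfix
      have h1 : -x.1 = x.1 := congrArg Subtype.val hfix
      have h2 : x.1 = 0 := by
        funext i
        have := congrFun h1 i
        simp only [Pi.neg_apply, Pi.zero_apply] at this ⊢
        omega
      have h3 := (halfQ_eq_zero_iff hsymm hdiag hpos x.1).mpr h2
      exact hn (x.2.symm.trans h3)
    · intro x
      exact Subtype.ext (neg_neg x.1)
  rw [Finset.sum_const, nsmul_eq_mul, mul_one] at key
  exact (ZMod.natCast_eq_zero_iff_even).mp key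

/-- The `q`-expansion of the theta series (as a `HasSum`). -/
theorem hasSum_theta_qParam (hsymm : A₀.IsSymm) (hdiag : ∀ i, Even (A₀ i i))
    (hpos : (A₀.map (Int.cast : ℤ → ℝ)).PosDef) {τ : ℂ} (hτ : 0 < τ.im) :
    HasSum (fun n : ℕ => (repNum A₀ n : ℂ) • Periodic.qParam 1 τ ^ n)
      (theta (A₀.map (Int.cast : ℤ → ℝ)) 0 τ) := by
  classical
  have hs := hasSum_theta hpos 0 hτ
  simp_rw [thetaTerm_eq_qParam_pow hsymm hdiag hpos] at hs
  have hs' := (Equiv.hasSum_iff (Equiv.sigmaFiberEquiv (halfQ A₀))).mpr hs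
  refine HasSum.sigma hs' fun n => ?_
  have : Fintype {x : ι → ℤ // halfQ A₀ x = n} :=
    (finite_halfQ_fibre hsymm hdiag hpos n).fintype
  have : (fun c : {x : ι → ℤ // halfQ A₀ x = n} =>
      ((fun x : ι → ℤ => Periodic.qParam 1 τ ^ halfQ A₀ x) ∘
        (Equiv.sigmaFiberEquiv (halfQ A₀))) ⟨n, c⟩) = fun _ => Periodic.qParam 1 τ ^ n := by
    funext c
    simp [Equiv.sigmaFiberEquiv, c.2]
  rw [this]
  have h2 := hasSum_fintype (fun _ : {x : ι → ℤ // halfQ A₀ x = n} => Periodic.qParam 1 τ ^ n)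
  rw [Finset.sum_const, Finset.card_univ, ← Nat.card_eq_fintype_card] at h2
  simpa [repNum, nsmul_eq_mul] using h2

/-- The theta series of an even integral lattice is `1`-periodic. -/
theorem thetaH_vadd_one (hsymm : A₀.IsSymm) (hdiag : ∀ i, Even (A₀ i i))
    (hpos : (A₀.map (Int.cast : ℤ → ℝ)).PosDef) (τ : UpperHalfPlane) :
    thetaH (A₀.map (Int.cast : ℤ → ℝ)) 0 ((1 : ℝ) +ᵥ τ) =
      thetaH (A₀.map (Int.cast : ℤ → ℝ)) 0 τ := by
  have h1 := hasSum_theta_qParam hsymm hdiag hpos (τ := (((1 : ℝ) +ᵥ τ : UpperHalfPlane) : ℂ))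
    ((1 : ℝ) +ᵥ τ).im_pos
  have h2 := hasSum_theta_qParam hsymm hdiag hpos (τ := (τ : ℂ)) τ.im_pos
  rw [Fermat.Agent.S24.JFun.qParam_one_vadd] at h1
  exact h1.unique h2

theorem analyticAt_cuspFunction_thetaH (hsymm : A₀.IsSymm) (hdiag : ∀ i, Even (A₀ i i))
    (hpos : (A₀.map (Int.cast : ℤ → ℝ)).PosDef) :
    AnalyticAt ℂ (UpperHalfPlane.cuspFunction 1 (thetaH (A₀.map (Int.cast : ℤ → ℝ)) 0)) 0 :=
  UpperHalfPlane.analyticAt_cuspFunction_zero one_pos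
    (Fermat.Agent.S24.JFun.periodic_comp_ofComplex_of_vadd (thetaH_vadd_one hsymm hdiag hpos))
    (mdifferentiable_thetaH hpos 0) (isBoundedAtImInfty_thetaH hpos 0)

/-- **The `q`-expansion coefficients of the theta series are the representation numbers.** -/
theorem qCoeff_thetaH (hsymm : A₀.IsSymm) (hdiag : ∀ i, Even (A₀ i i))
    (hpos : (A₀.map (Int.cast : ℤ → ℝ)).PosDef) (n : ℕ) :
    ModularFormClass.qCoeff (thetaH (A₀.map (Int.cast : ℤ → ℝ)) 0) n = (repNum A₀ n : ℂ) := by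
  rw [ModularFormClass.qCoeff]
  exact Fermat.Agent.S24.JFun.qExpansion_coeff_unique_fun
    (analyticAt_cuspFunction_thetaH hsymm hdiag hpos)
    (fun τ => hasSum_theta_qParam hsymm hdiag hpos τ.im_pos) n

theorem qCoeff_thetaH_zero (hsymm : A₀.IsSymm) (hdiag : ∀ i, Even (A₀ i i))
    (hpos : (A₀.map (Int.cast : ℤ → ℝ)).PosDef) :
    ModularFormClass.qCoeff (thetaH (A₀.map (Int.cast : ℤ → ℝ)) 0) 0 = 1 := by
  rw [qCoeff_thetaH hsymm hdiag hpos, repNum_zero hsymm hdiag hpos, Nat.cast_one]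

theorem qCoeff_thetaH_even (hsymm : A₀.IsSymm) (hdiag : ∀ i, Even (A₀ i i))
    (hpos : (A₀.map (Int.cast : ℤ → ℝ)).PosDef) {n : ℕ} (hn : 1 ≤ n) :
    ∃ m : ℤ, ModularFormClass.qCoeff (thetaH (A₀.map (Int.cast : ℤ → ℝ)) 0) n = 2 * (m : ℂ) := by
  obtain ⟨m, hm⟩ := even_repNum hsymm hdiag hpos (n := n) (by omega)
  refine ⟨m, ?_⟩
  rw [qCoeff_thetaH hsymm hdiag hpos, hm]
  push_cast
  ring

end Lattice

end Fermat.Agent.S16.H188
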