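import Mathlib

/-!
# S16 / THETA-AN (part 1): theta series of a positive definite quadratic form

For a real positive definite matrix `A` and a characteristic `h : ι → ℝ` we define
`theta A h τ = ∑_{x ∈ ℤ^ι} exp (π i τ (x+h)ᵀ A (x+h))` and prove: norm-summability (locally
uniform in `τ`), holomorphy on the upper half plane and boundedness at `i∞`.
-/

set_option autoImplicit false

noncomputable section

namespace Fermat.Agent.S16.H188

open Complex Matrix
open scoped Real Manifold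

variable {ι : Type*} [Fintype ι]

/-- The real quadratic form `v ↦ vᵀ A v`. -/
def qf (A : Matrix ι ι ℝ) (v : ι → ℝ) : ℝ := v ⬝ᵥ A *ᵥ v

lemma qf_smul (A : Matrix ι ι ℝ) (c : ℝ) (v : ι → ℝ) : qf A (c • v) = c ^ 2 * qf A v := by
  simp only [qf, Matrix.mulVec_smul, dotProduct_smul, smul_dotProduct, smul_eq_mul]
  ring

lemma qf_zero (A : Matrix ι ι ℝ) : qf A 0 = 0 := by simp [qf]

lemma qf_neg (A : Matrix ι ι ℝ) (v : ι → ℝ) : qf A (-v) = qf A v := by
  simp [qf, Matrix.mulVec_neg]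

lemma continuous_qf (A : Matrix ι ι ℝ) : Continuous (qf A) := by
  unfold qf
  simp only [dotProduct, mulVec]
  fun_prop

lemma qf_pos {A : Matrix ι ι ℝ} (hA : A.PosDef) {v : ι → ℝ} (hv : v ≠ 0) : 0 < qf A v := by
  have := hA.dotProduct_mulVec_pos hv
  simpa [qf] using this

/-- Coercivity of a positive definite form. -/
theorem exists_pos_le_qf {A : Matrix ι ι ℝ} (hA : A.PosDef) :
    ∃ c : ℝ, 0 < c ∧ ∀ v : ι → ℝ, c * ∑ i, v i ^ 2 ≤ qf A v := by
  rcases isEmpty_or_nonempty ι with hι | hι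
  · refine ⟨1, one_pos, fun v => ?_⟩
    have : v = 0 := Subsingleton.elim _ _
    subst this
    simp [qf_zero]
  · have hS : IsCompact (Metric.sphere (0 : ι → ℝ) 1) := isCompact_sphere 0 1
    have hne : (Metric.sphere (0 : ι → ℝ) 1).Nonempty :=
      (NormedSpace.sphere_nonempty (E := ι → ℝ)).mpr zero_le_one
    obtain ⟨u, hu, hmin⟩ := hS.exists_isMinOn hne (continuous_qf A).continuousOn
    have hu0 : u ≠ 0 := by
      rintro rfl
      simp at hu
    have hc0 : 0 < qf A u := qf_pos hA hu0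
    have hcard : (0 : ℝ) < Fintype.card ι := by exact_mod_cast Fintype.card_pos
    refine ⟨qf A u / Fintype.card ι, by positivity, fun v => ?_⟩
    have hsum : ∑ i, v i ^ 2 ≤ Fintype.card ι * ‖v‖ ^ 2 := by
      calc ∑ i, v i ^ 2 ≤ ∑ _i : ι, ‖v‖ ^ 2 := by
            refine Finset.sum_le_sum fun i _ => ?_
            have h1 : ‖v i‖ ≤ ‖v‖ := norm_le_pi_norm v i
            have h2 : v i ^ 2 = ‖v i‖ ^ 2 := by rw [Real.norm_eq_abs, sq_abs]
            rw [h2]
            exact pow_le_pow_left₀ (norm_nonneg _) h1 2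
        _ = Fintype.card ι * ‖v‖ ^ 2 := by simp
    have hv : qf A u * ‖v‖ ^ 2 ≤ qf A v := by
      rcases eq_or_ne v 0 with rfl | hv0
      · simp [qf_zero]
      · have hn : 0 < ‖v‖ := norm_pos_iff.mpr hv0
        have hw : ‖v‖⁻¹ • v ∈ Metric.sphere (0 : ι → ℝ) 1 := by
          simp [norm_smul, hn.ne']
        have : qf A u ≤ qf A (‖v‖⁻¹ • v) := hmin hw
        rw [qf_smul] at this
        have h3 : qf A u * ‖v‖ ^ 2 ≤ (‖v‖⁻¹ ^ 2 * qf A v) * ‖v‖ ^ 2 :=
          mul_le_mul_of_nonneg_right this (by positivity)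
        have h4 : (‖v‖⁻¹ ^ 2 * qf A v) * ‖v‖ ^ 2 = qf A v := by
          field_simp
        linarith
    calc qf A u / Fintype.card ι * ∑ i, v i ^ 2
        ≤ qf A u / Fintype.card ι * (Fintype.card ι * ‖v‖ ^ 2) :=
          mul_le_mul_of_nonneg_left hsum (by positivity)
      _ = qf A u * ‖v‖ ^ 2 := by field_simp
      _ ≤ qf A v := hv

/-! ### Gaussian sums -/

/-- One-dimensional Gaussian sums converge. -/
theorem summable_gauss (c : ℝ) (hc : 0 < c) (h : ℝ) :
    Summable fun n : ℤ => Real.exp (-c * ((n : ℝ) + h) ^ 2) := by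
  have hτ : 0 < (I * (c / π : ℝ) : ℂ).im := by
    simp only [mul_im, I_re, I_im, ofReal_re, ofReal_im]
    have : 0 < c / π := by positivity
    linarith
  have hs := ((summable_jacobiTheta₂_term_iff (I * (c * h / π : ℝ)) (I * (c / π : ℝ))).mpr hτ).norm
  have key : ∀ n : ℤ, Real.exp (-c * ((n : ℝ) + h) ^ 2) =
      Real.exp (-c * h ^ 2) * ‖jacobiTheta₂_term n (I * (c * h / π : ℝ)) (I * (c / π : ℝ))‖ := by
    intro n
    rw [jacobiTheta₂_term, Complex.norm_exp, ← Real.exp_add]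
    congr 1
    have hπ : (π : ℝ) ≠ 0 := Real.pi_ne_zero
    have : (2 * (π : ℂ) * I * n * (I * ((c * h / π : ℝ) : ℂ)) + π * I * (n : ℂ) ^ 2 *
        (I * ((c / π : ℝ) : ℂ))) = ((-(2 * c * h * n) - c * n ^ 2 : ℝ) : ℂ) := by
      push_cast
      have hπ' : (π : ℂ) ≠ 0 := by exact_mod_cast hπ
      field_simp
      ring_nf
      rw [I_sq]
      ring
    rw [this, ofReal_re]
    ring
  simp_rw [key]
  exact hs.mul_left _

/-- Products of nonnegative summable families over `ℤ` are summable over `Fin n → ℤ`. -/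
theorem summable_fin_prod : ∀ (n : ℕ) (f : Fin n → ℤ → ℝ), (∀ i, Summable (f i)) →
    (∀ i m, 0 ≤ f i m) → Summable fun x : Fin n → ℤ => ∏ i, f i (x i)
  | 0, f, _, _ => by
      exact Summable.of_finite
  | n + 1, f, hf, hf0 => by
      have ih := summable_fin_prod n (fun i => f i.succ) (fun i => hf i.succ)
        (fun i m => hf0 i.succ m)
      have hprod := Summable.mul_of_nonneg (hf 0) ih (fun m => hf0 0 m)
        (fun x => Finset.prod_nonneg fun i _ => hf0 _ _)
      refine (Equiv.summable_iff (Fin.consEquiv (fun _ : Fin (n + 1) => ℤ))).mp ?_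
      refine hprod.congr fun p => ?_
      simp [Fin.prod_univ_succ, Fin.consEquiv]

/-- Products of nonnegative summable families over `ℤ` are summable over `ι → ℤ`. -/
theorem summable_pi_prod (f : ι → ℤ → ℝ) (hf : ∀ i, Summable (f i))
    (hf0 : ∀ i m, 0 ≤ f i m) : Summable fun x : ι → ℤ => ∏ i, f i (x i) := by
  classical
  let e := Fintype.equivFin ι
  have h := summable_fin_prod (Fintype.card ι) (fun j => f (e.symm j)) (fun j => hf _)
    (fun j m => hf0 _ m)
  let E : (ι → ℤ) ≃ (Fin (Fintype.card ι) → ℤ) := Equiv.arrowCongr e (Equiv.refl ℤ)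
  have h' := (Equiv.summable_iff E).mpr h
  refine h'.congr fun x => ?_
  simp only [Function.comp_apply, E, Equiv.arrowCongr_apply, Equiv.refl_apply]
  exact (Fintype.prod_equiv e.symm (fun j => f (e.symm j) (x (e.symm j))) (fun i => f i (x i))
    (fun j => rfl))

/-- The Gaussian majorant. -/
def gaussBound (c : ℝ) (h : ι → ℝ) (x : ι → ℤ) : ℝ :=
  ∏ i, Real.exp (-c * ((x i : ℝ) + h i) ^ 2)

theorem summable_gaussBound (c : ℝ) (hc : 0 < c) (h : ι → ℝ) :
    Summable (gaussBound c h) :=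
  summable_pi_prod (fun i n => Real.exp (-c * ((n : ℝ) + h i) ^ 2))
    (fun i => summable_gauss c hc (h i)) (fun _ _ => (Real.exp_pos _).le)

lemma gaussBound_eq (c : ℝ) (h : ι → ℝ) (x : ι → ℤ) :
    gaussBound c h x = Real.exp (-c * ∑ i, ((x i : ℝ) + h i) ^ 2) := by
  rw [gaussBound, ← Real.exp_sum, Finset.mul_sum]

/-! ### The theta series -/

/-- The shifted lattice vector `x + h`. -/
def shiftVec (h : ι → ℝ) (x : ι → ℤ) : ι → ℝ := fun i => (x i : ℝ) + h i

/-- The general term of the theta series. -/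
def thetaTerm (A : Matrix ι ι ℝ) (h : ι → ℝ) (τ : ℂ) (x : ι → ℤ) : ℂ :=
  cexp (π * I * τ * (qf A (shiftVec h x) : ℝ))

/-- The theta series `∑_{x ∈ ℤ^ι} exp (π i τ (x+h)ᵀ A (x+h))` as a function of `τ : ℂ`. -/
def theta (A : Matrix ι ι ℝ) (h : ι → ℝ) (τ : ℂ) : ℂ := ∑' x : ι → ℤ, thetaTerm A h τ x

lemma norm_thetaTerm (A : Matrix ι ι ℝ) (h : ι → ℝ) (τ : ℂ) (x : ι → ℤ) :
    ‖thetaTerm A h τ x‖ = Real.exp (-(π * τ.im * qf A (shiftVec h x))) := by
  rw [thetaTerm, Complex.norm_exp]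
  congr 1
  simp only [mul_re, mul_im, ofReal_re, ofReal_im, I_re, I_im]
  ring

lemma norm_thetaTerm_le {A : Matrix ι ι ℝ} {c : ℝ} (hc0 : 0 ≤ c)
    (hc : ∀ v : ι → ℝ, c * ∑ i, v i ^ 2 ≤ qf A v)
    (h : ι → ℝ) {y : ℝ} (hy : 0 ≤ y) {τ : ℂ} (hτ : y ≤ τ.im) (x : ι → ℤ) :
    ‖thetaTerm A h τ x‖ ≤ gaussBound (π * y * c) h x := by
  rw [norm_thetaTerm, gaussBound_eq, Real.exp_le_exp]
  have h1 := hc (shiftVec h x)
  have hS : 0 ≤ ∑ i, (shiftVec h x i) ^ 2 := Finset.sum_nonneg fun i _ => sq_nonneg _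
  have hq : 0 ≤ qf A (shiftVec h x) := le_trans (mul_nonneg hc0 hS) h1
  have hπ : 0 < π := Real.pi_pos
  have h2 : π * y * (c * ∑ i, ((x i : ℝ) + h i) ^ 2) ≤ π * y * qf A (shiftVec h x) :=
    mul_le_mul_of_nonneg_left h1 (by positivity)
  have h3 : π * y * qf A (shiftVec h x) ≤ π * τ.im * qf A (shiftVec h x) :=
    mul_le_mul_of_nonneg_right (mul_le_mul_of_nonneg_left hτ hπ.le) hq
  linarith

/-- Norm-summability of the theta series at every point of the upper half plane. -/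
theorem summable_norm_thetaTerm {A : Matrix ι ι ℝ} (hA : A.PosDef) (h : ι → ℝ) {τ : ℂ}
    (hτ : 0 < τ.im) : Summable fun x : ι → ℤ => ‖thetaTerm A h τ x‖ := by
  obtain ⟨c, hc0, hc⟩ := exists_pos_le_qf hA
  refine Summable.of_nonneg_of_le (fun _ => norm_nonneg _)
    (fun x => norm_thetaTerm_le hc0.le hc h hτ.le le_rfl x)
    (summable_gaussBound _ (by positivity) h)

theorem summable_thetaTerm {A : Matrix ι ι ℝ} (hA : A.PosDef) (h : ι → ℝ) {τ : ℂ}
    (hτ : 0 < τ.im) : Summable fun x : ι → ℤ => thetaTerm A h τ x :=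
  (summable_norm_thetaTerm hA h hτ).of_norm

theorem hasSum_theta {A : Matrix ι ι ℝ} (hA : A.PosDef) (h : ι → ℝ) {τ : ℂ}
    (hτ : 0 < τ.im) : HasSum (fun x : ι → ℤ => thetaTerm A h τ x) (theta A h τ) :=
  (summable_thetaTerm hA h hτ).hasSum

lemma differentiable_thetaTerm (A : Matrix ι ι ℝ) (h : ι → ℝ) (x : ι → ℤ) :
    Differentiable ℂ fun τ : ℂ => thetaTerm A h τ x := by
  unfold thetaTerm
  fun_prop

/-- The theta series is holomorphic on the upper half plane. -/
theorem differentiableOn_theta {A : Matrix ι ι ℝ} (hA : A.PosDef) (h : ι → ℝ) :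
    DifferentiableOn ℂ (theta A h) {τ : ℂ | 0 < τ.im} := by
  obtain ⟨c, hc0, hc⟩ := exists_pos_le_qf hA
  intro τ hτ
  have hτ' : 0 < τ.im := hτ
  set y := τ.im / 2 with hy
  have hy0 : 0 < y := by positivity
  have hopen : IsOpen {w : ℂ | y < w.im} := isOpen_lt continuous_const Complex.continuous_im
  have hmem : τ ∈ {w : ℂ | y < w.im} := by
    show y < τ.im
    rw [hy]; linarith
  have hd : DifferentiableOn ℂ (fun w : ℂ => ∑' x : ι → ℤ, thetaTerm A h w x)
      {w : ℂ | y < w.im} :=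
    differentiableOn_tsum_of_summable_norm (summable_gaussBound (π * y * c) (by positivity) h)
      (fun x => (differentiable_thetaTerm A h x).differentiableOn) hopen
      (fun x w hw => norm_thetaTerm_le hc0.le hc h hy0.le (le_of_lt hw) x)
  exact ((hd τ hmem).differentiableAt (hopen.mem_nhds hmem)).differentiableWithinAt

/-- The theta series as a function on the upper half plane. -/
def thetaH (A : Matrix ι ι ℝ) (h : ι → ℝ) : UpperHalfPlane → ℂ := fun τ => theta A h (τ : ℂ)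

theorem mdifferentiable_thetaH {A : Matrix ι ι ℝ} (hA : A.PosDef) (h : ι → ℝ) :
    MDiff (thetaH A h) := by
  rw [UpperHalfPlane.mdifferentiable_iff]
  refine (differentiableOn_theta hA h).congr fun z hz => ?_
  simp only [Function.comp_apply, thetaH]
  rw [UpperHalfPlane.ofComplex_apply_of_im_pos hz]

/-- Uniform bound of the theta series on `{1 ≤ im τ}`. -/
theorem norm_theta_le {A : Matrix ι ι ℝ} (hA : A.PosDef) (h : ι → ℝ) :
    ∃ M : ℝ, ∀ τ : ℂ, 1 ≤ τ.im → ‖theta A h τ‖ ≤ M := by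
  obtain ⟨c, hc0, hc⟩ := exists_pos_le_qf hA
  have hs := summable_gaussBound (π * 1 * c) (by positivity) h
  refine ⟨∑' x : ι → ℤ, gaussBound (π * 1 * c) h x, fun τ hτ => ?_⟩
  have hτ0 : 0 < τ.im := lt_of_lt_of_le one_pos hτ
  calc ‖theta A h τ‖ ≤ ∑' x : ι → ℤ, ‖thetaTerm A h τ x‖ :=
        norm_tsum_le_tsum_norm (summable_norm_thetaTerm hA h hτ0)
    _ ≤ ∑' x : ι → ℤ, gaussBound (π * 1 * c) h x :=
        (summable_norm_thetaTerm hA h hτ0).tsum_le_tsum
          (fun x => norm_thetaTerm_le hc0.le hc h zero_le_one hτ x) hs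

theorem isBoundedAtImInfty_thetaH {A : Matrix ι ι ℝ} (hA : A.PosDef) (h : ι → ℝ) :
    UpperHalfPlane.IsBoundedAtImInfty (thetaH A h) := by
  rw [UpperHalfPlane.isBoundedAtImInfty_iff]
  obtain ⟨M, hM⟩ := norm_theta_le hA h
  exact ⟨M, 1, fun z hz => hM _ hz⟩

end Fermat.Agent.S16.H188
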